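import Fermat.Agent.RTan.Mod

/-!
# Level lowering in case (B): trivial residual representation at the tame inertia generator at `p`
-/

set_option autoImplicit false
set_option linter.unusedSectionVars false

namespace Fermat.Agent.SL2

open IsLocalRing Module Fermat.Agent.RT1 Fermat.Agent.LocRing Fermat.Agent.DefRing
  Fermat.Agent.RT8J Fermat.Agent.RT8 Fermat.Agent.RTan
open Fermat.Agent.TWP (Pl Qb)
open Fermat.Agent.ORD (Pair)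

section abs

variable {𝒪 : Type} [CommRing 𝒪] [IsDomain 𝒪] [IsDiscreteValuationRing 𝒪]
  [IsAdicComplete (maximalIdeal 𝒪) 𝒪] [Finite (ResidueField 𝒪)]
  {rbar : GQ →* M2 (ResidueField 𝒪)}
  {sd : SliceData rbar} {p g : ℕ} {Λ J K : Type} [Fintype Λ] [DecidableEq Λ]
  {Y : Sys sd p g Λ J K}

/-- **Lowering, case (B).** -/
theorem frm_lowerB (hp : p.Prime) (hp𝒪 : (p : 𝒪) ∈ maximalIdeal 𝒪) (hN : NumC Y.q) {g' : ℕ}
    (Z : Frm Y Bool g') (hg : g' + 1 ≤ g) (huv : ∀ n, Z.s n false * Z.s n true = 0) (k : K)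
    (hd : 0 < Y.d k) (l : Λ) (hnew : NewAt Y k l) : rbar (Y.τ l) ≠ 1 := by
  have i1 : NeZero p := ⟨hp.ne_zero⟩
  obtain ⟨θ, hθ⟩ := exists_specB Z.V (fullPkg (Unit ⊕ Fin g') Z.F₀ Z.N₀)
  have h1 := Z.lower hp hp𝒪 (Z.cmpB hθ hN hg) k hd (Z.ppB hp hp𝒪 hθ huv k) l hnew
  intro h2
  apply h1
  rw [Z.hN₀, h2, sub_self]

end abs

section B

variable {𝒪 : Type} [CommRing 𝒪] [IsDomain 𝒪] [IsDiscreteValuationRing 𝒪]
  [IsAdicComplete (maximalIdeal 𝒪) 𝒪] [Finite (ResidueField 𝒪)]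
  {rbar : GQ →* M2 (ResidueField 𝒪)}
  {sd : SliceData rbar} {p m : ℕ} [hp : Fact p.Prime] {Λ K : Type} [Fintype Λ] [DecidableEq Λ]
  [Finite K] {X : MSys sd p m Λ K} {χ : GQ → 𝒪} (D : MTan X χ)
  (hp𝒪 : (p : 𝒪) ∈ maximalIdeal 𝒪) (hp2 : p ≠ 2) (hχ : CycChar p χ) (b : Bas p χ rbar)
  {φ τ : GQ}

include D hp2 hχ hp𝒪 in
/-- **Level lowering, case (B), module form.** -/
theorem tan_lowerB (hpt : OrdAt p χ X.pt.r) (hL : ∀ n k, OrdAt p χ (X.L n k).C.r)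
    (hpair : Pair p (Pl (ExtCitation.pPrime p)) φ τ)
    (hτ : rbar τ = 1) (z₀ : 𝒪) (hz₀ : z₀ ^ 2 = 1) (hzpt : b.z X.pt.r φ = algebraMap 𝒪 _ z₀)
    (hN : RT8.NumC (fun l => (X.ℓ l : 𝒪))) (k : K) (hd : 0 < (X.B k).d) (l : Λ)
    (hnew : RT8.NewM X k l) : rbar (X.τ l) ≠ 1 := by
  have hres : b.z rbar φ = residue 𝒪 z₀ := by
    obtain ⟨π, hπ⟩ := RT8J.exists_pi (𝒪 := 𝒪) (R := (X.A hp.out hp𝒪 0).R)
      (X.A hp.out hp𝒪 0).surj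
    have h1 := pi_z b (Y := X.toSys hp.out hp𝒪) (n := 0) hπ φ
    rw [← h1, ← hπ, ← sub_eq_zero, ← map_sub, RT8J.pi_eq_zero_iff π hπ]
    by_contra hcon
    have h2 : IsUnit (b.z (X.A hp.out hp𝒪 0).r0 φ - algebraMap 𝒪 _ z₀) := by
      rwa [mem_maximalIdeal, mem_nonunits_iff, not_not] at hcon
    have h3 := h2.map ((X.A hp.out hp𝒪 0).pr none)
    rw [map_sub, pr_pt_z, hzpt, AlgHom.commutes] at h3
    have h4 : algebraMap 𝒪 X.pt.T z₀ - algebraMap 𝒪 X.pt.T z₀ = 0 := sub_self _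
    have h5 : IsUnit (0 : X.pt.T) := h4 ▸ h3
    exact not_isUnit_zero h5
  obtain ⟨g', hg', Z, -, -, huv⟩ := (D.toTan hp𝒪).exists_frm_B hp2 hχ hp𝒪
    (fun n => forall_opt hp𝒪 (fun _ _ _ r => OrdAt p χ r) hpt (hL n)) b hpair hτ z₀ hz₀ hres
  exact frm_lowerB hp.out hp𝒪 hN Z hg'.le huv k hd l (hnew.toNewAt hp.out hp𝒪)

end B

end Fermat.Agent.SL2
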