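import Fermat.Agent.RTX.LiftX
import Fermat.Agent.SL2.TanB

/-!
Level lowering at a prime `l ≠ p`, multiplicative reduction at `p` (levels divisible by `p` or not).
-/

set_option autoImplicit false
set_option linter.unusedSectionVars false

noncomputable section

namespace Fermat.Agent.SL2

open IsLocalRing Fermat.Agent.DefRing Fermat.Agent.RTan Fermat.Agent.LocRing
open Fermat.Agent.TWP (Pl Pl_lies Qb)
open Fermat.Agent.ORD (Pair)
open Fermat.Agent.TW (NonEis Loc HG)
open Fermat.Agent.RTM (Gal GalP DegZ IsLev PP LamP numC coprime_Q Q_ne_zero q_ne isUnit_nat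
  span_of_rd)
open Fermat.Agent.RTX

section ord

variable {O : Type} [CommRing O] [IsDomain O] [IsDiscreteValuationRing O]
  [IsAdicComplete (maximalIdeal O) O] [Finite (ResidueField O)] [CharZero O]
  {rbar : GQ →* M2 (ResidueField O)} {sd : SliceData rbar} {p s : ℕ} [hp : Fact p.Prime]
  {W : WeierstrassCurve ℤ} {χ : GQ → O} {m : ℕ} {G : Gal sd p W χ m} (M : SupplyX G s)
  (hm : m ≠ 0) (hpm : p ∣ m) (hpO : (p : O) ∈ maximalIdeal O)
  (hΔm : ∀ q : ℕ, q.Prime → (q : ℤ) ∣ W.Δ → q ∣ m) (hχ : CycChar p χ)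
  {N : ℕ} (h : OkX W p s m N)

/-- **The system consisting of one level**, base point the curve. -/
def sysO : RT8.MSys sd p G.g (LamP p m) Unit where
  ℓ l := l.1
  φ l := G.φ l.pr
  τ l := G.τ l.pr
  pt := G.pt
  B _ := M.B N h
  P := G.P
  L n _ := M.L n N h
  ram _ := Finset.univ.filter fun l => l.1 ∣ N
  hpt l := G.pt_uni l.pr l.ne
  hB k l := by
    have := h.neZero
    exact (M.levB _ h).isUni hpO hm h.memL hχ (h.nsqL l.prime) (G.tame l.pr l.ne)
  hL n k l := by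
    have := h.neZeroL' G n
    exact (M.levL n _ h _ rfl).isUni hpO (mul_ne_zero hm (Q_ne_zero G n)) (h.memL' G n) hχ
      (h.nsqL' G n l.prime l.dvd) (G.tame l.pr l.ne)
  hIpt n i := G.pt_good (G.q n i) (q_ne G hpm n i)
    (fun h => G.avoid n i (hΔm _ (G.q n i).2 h)) (Pl (G.q n i)) (Pl_lies _) _ (G.inert n i)
  hram n k l hl := by
    have := h.neZeroL' G n
    refine (M.levL n _ h _ rfl).unr l.1 l.prime ?_ l.ne (Pl l.pr) (Pl_lies l.pr) _
      (G.tame l.pr l.ne).mem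
    intro h1
    rcases l.prime.dvd_mul.mp h1 with h2 | h2
    · exact hl (Finset.mem_filter.mpr ⟨Finset.mem_univ _, h2⟩)
    · exact (Nat.Prime.coprime_iff_not_dvd l.prime).mp (coprime_Q G l.prime l.dvd n)
        (l.prime.dvd_of_dvd_pow h2)

/-- **The global data of the system.** -/
def tanO : MTan (sysO M hm hpm hpO hΔm hχ h) χ where
  S := G.S
  hpS := G.hpS
  unrOut := G.unrOut
  rd := G.rd
  q := G.q
  τQ n i := (G.P n i).φ
  lev := id
  tw := G.tw
  ec := G.ec
  prime l := l.prime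
  inj _ _ h := Subtype.ext h
  mem l := G.mem l.pr l.dvd
  tame l := G.tame l.pr l.ne
  det_pt := G.pt_det
  det n k σ := by
    have := h.neZeroL' G n
    exact (M.levL n _ h _ rfl).det hpO (mul_ne_zero hm (Q_ne_zero G n)) (h.memL' G n) hχ σ
  unr_pt v hvp hv A hA σ hσ := by
    have hvp' : (v : ℕ) ≠ p := fun h => hvp (Subtype.ext h)
    exact G.pt_good v hvp' (fun h => hv (LamP.mk' hm v.2 hvp' (hΔm _ v.2 h)) rfl) A hA σ hσ
  unr n k v hvp hv hvQ A hA σ hσ := by
    have := h.neZeroL' G n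
    have hvp' : (v : ℕ) ≠ p := fun h => hvp (Subtype.ext h)
    refine (M.levL n _ h _ rfl).unr v v.2 (fun h1 => ?_) hvp' A hA σ hσ
    rcases v.2.dvd_mul.mp h1 with h2 | h2
    · exact hv (LamP.mk' hm v.2 hvp' (h.memL v v.2 h2)) rfl
    · obtain ⟨i, -, h3⟩ := (Prime.dvd_finsetProd_iff v.2.prime _).mp (v.2.dvd_of_dvd_pow h2)
      exact hvQ i (Subtype.ext ((Nat.prime_dvd_prime_iff_eq v.2 (G.q n i).2).mp h3))

include M hm hpm hpO hΔm hχ in
/-- **Level lowering** at a prime `l ≠ p` where the residual representation is unramified,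
multiplicative reduction at `p`. -/
theorem lowerX_ord (hp2 : p ≠ 2) (P : GalP G) {l : Nat.Primes} (hlp : (l : ℕ) ≠ p)
    (h' : OkX W p s m (N * l)) (hsN : s ∣ N) (hτ : rbar (G.τ l) = 1) :
    W.IsResiduallyModularOfLevel p N := by
  by_contra hN
  have hlm : (l : ℕ) ∣ m := (Dvd.intro_left N rfl).trans h'.dvd
  have hnew : RT8.NewM (sysO M hm hpm hpO hΔm hχ h') () (LamP.mk' hm l.2 hlp hlm) := by
    refine ⟨fun n => ?_, M.exact l hlp N h' hsN hN⟩
    have := h'.neZeroL' G n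
    exact (M.levL n _ h' _ rfl).isStPm hpO (mul_ne_zero hm (Q_ne_zero G n)) (h'.memL' G n) hχ
      (h'.nsqL' G n l.2 hlm) (G.tame l hlp) (M.newst l hlp N h' hsN hN n)
  by_cases hτP : rbar P.τ = 1
  · exact tan_lowerB (tanO M hm hpm hpO hΔm hχ h') hpO hp2 hχ P.b P.ord
      (fun n _ => M.ord P n _ h') P.pair hτP P.z₀ P.sq P.zpt (numC hpO hp2) () (M.dpos _ h')
      (LamP.mk' hm l.2 hlp hlm) hnew hτ
  · obtain ⟨Z⟩ := (tanO M hm hpm hpO hΔm hχ h').exists_frm_st hpO hp2 hχ P.ord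
      (fun n _ => M.ord P n _ h') P.b P.pair hτP
    exact RT8.MSys.lowerA hp.out hpO (numC hpO hp2) Z le_rfl () (M.dpos _ h')
      (LamP.mk' hm l.2 hlp hlm) hnew hτ

end ord

end Fermat.Agent.SL2

end
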