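import Fermat.Agent.SL2.Flat
import Fermat.Agent.SL2.Ord

/-!
Level lowering at a prime `l ≠ p`: all cases.
-/

set_option autoImplicit false
set_option linter.unusedSectionVars false

noncomputable section

namespace Fermat.Agent.SL2

open IsLocalRing Fermat.Agent.DefRing Fermat.Agent.RTan Fermat.Agent.LocRing
open Fermat.Agent.RTM (Gal GalP)
open Fermat.Agent.RTX

section all

variable {O : Type} [CommRing O] [IsDomain O] [IsDiscreteValuationRing O]
  [IsAdicComplete (maximalIdeal O) O] [Finite (ResidueField O)] [CharZero O]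
  {rbar : GQ →* M2 (ResidueField O)} {sd : SliceData rbar} {p s : ℕ} [hp : Fact p.Prime]
  {W : WeierstrassCurve ℤ} {χ : GQ → O} {m : ℕ} {G : Gal sd p W χ m} (M : SupplyX G s)
  (hm : m ≠ 0) (hpm : p ∣ m) (hpO : (p : O) ∈ maximalIdeal O)
  (hΔm : ∀ q : ℕ, q.Prime → (q : ℤ) ∣ W.Δ → q ∣ m) (hχ : CycChar p χ) {N : ℕ}

include M hm hpm hpO hΔm hχ in
/-- **Level lowering** at a prime `l ≠ p` where the residual representation is unramified. -/
theorem lowerX (hp2 : p ≠ 2) {l : Nat.Primes} (hlp : (l : ℕ) ≠ p)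
    (h' : OkX W p s m (N * l)) (hsN : s ∣ N) (hpN : ¬ p ∣ N * l ∨ Nonempty (GalP G))
    (hτ : rbar (G.τ l) = 1) : W.IsResiduallyModularOfLevel p N := by
  rcases hpN with hpN | ⟨⟨P⟩⟩
  · exact lowerX_flat M hm hpm hpO hχ hp2 hlp h' hsN hpN hτ
  · exact lowerX_ord M hm hpm hpO hΔm hχ hp2 P hlp h' hsN hτ

end all

end Fermat.Agent.SL2

end
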