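import Fermat.Agent.RTX.LiftX

/-!
Level lowering at a prime `l ≠ p`, for the general levels (with an auxiliary number `s`):
levels prime to `p`.
-/

set_option autoImplicit false
set_option linter.unusedSectionVars false

noncomputable section

namespace Fermat.Agent.SL2

open IsLocalRing Fermat.Agent.DefRing Fermat.Agent.RTan Fermat.Agent.LocRing
open Fermat.Agent.TWP (Pl Pl_lies Qb)
open Fermat.Agent.RTM (Gal GalP IsLev LamP numC coprime_Q Q_ne_zero q_ne span_of_rd)
open Fermat.Agent.RTX (SupplyX OkX)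

section lower

variable {O : Type} [CommRing O] [IsDomain O] [IsDiscreteValuationRing O]
  [IsAdicComplete (maximalIdeal O) O] [Finite (ResidueField O)] [CharZero O]
  {rbar : GQ →* M2 (ResidueField O)} {sd : SliceData rbar} {p s : ℕ} [hp : Fact p.Prime]
  {W : WeierstrassCurve ℤ} {χ : GQ → O} {m : ℕ} {G : Gal sd p W χ m} (M : SupplyX G s)
  (hm : m ≠ 0) (hpm : p ∣ m) (hpO : (p : O) ∈ maximalIdeal O) (hχ : CycChar p χ)
  {N : ℕ} (h : OkX W p s m N)

/-- **The system consisting of one level.** -/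
def flSys : RT8.MSys sd p G.g (LamP p m) Unit where
  ℓ l := l.1
  φ l := G.φ l.pr
  τ l := G.τ l.pr
  pt := (M.B N h).C
  B _ := M.B N h
  P := G.P
  L n _ := M.L n N h
  ram _ := Finset.univ.filter fun l => l.1 ∣ N
  hpt l := by
    have := h.neZero
    exact (M.levB _ h).isUni hpO hm h.memL hχ (h.nsqL l.prime) (G.tame l.pr l.ne)
  hB k l := by
    have := h.neZero
    exact (M.levB _ h).isUni hpO hm h.memL hχ (h.nsqL l.prime) (G.tame l.pr l.ne)
  hL n k l := by
    have := h.neZeroL' G n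
    exact (M.levL n _ h _ rfl).isUni hpO (mul_ne_zero hm (Q_ne_zero G n)) (h.memL' G n) hχ
      (h.nsqL' G n l.prime l.dvd) (G.tame l.pr l.ne)
  hIpt n i := by
    have := h.neZero
    exact (M.levB _ h).unr (G.q n i) (G.q n i).2 (fun hd => G.avoid n i (hd.trans h.dvd))
      (q_ne G hpm n i) (Pl (G.q n i)) (Pl_lies _) _ (G.inert n i)
  hram n k l hl := by
    have := h.neZeroL' G n
    refine (M.levL n _ h _ rfl).unr l.1 l.prime ?_ l.ne (Pl l.pr) (Pl_lies l.pr) _
      (G.tame l.pr l.ne).mem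
    intro h1
    rcases l.prime.dvd_mul.mp h1 with h2 | h2
    · exact hl (Finset.mem_filter.mpr ⟨Finset.mem_univ _, h2⟩)
    · exact (Nat.Prime.coprime_iff_not_dvd l.prime).mp (coprime_Q G l.prime l.dvd n)
        (l.prime.dvd_of_dvd_pow h2)

/-- **The global data of the system.** -/
def flTan : MTan (flSys M hm hpm hpO hχ h) χ where
  S := G.S
  hpS := G.hpS
  unrOut := G.unrOut
  rd := G.rd
  q := G.q
  τQ n i := (G.P n i).φ
  lev := id
  tw := G.tw
  ec := G.ec
  prime l := l.prime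
  inj _ _ h := Subtype.ext h
  mem l := G.mem l.pr l.dvd
  tame l := G.tame l.pr l.ne
  det_pt σ := by
    have := h.neZero
    exact (M.levB _ h).det hpO hm h.memL hχ σ
  det n k σ := by
    have := h.neZeroL' G n
    exact (M.levL n _ h _ rfl).det hpO (mul_ne_zero hm (Q_ne_zero G n)) (h.memL' G n) hχ σ
  unr_pt v hvp hv A hA σ hσ := by
    have := h.neZero
    have hvp' : (v : ℕ) ≠ p := fun h => hvp (Subtype.ext h)
    exact (M.levB _ h).unr v v.2 (fun hd => hv (LamP.mk' hm v.2 hvp' (hd.trans h.dvd)) rfl) hvp'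
      A hA σ hσ
  unr n k v hvp hv hvQ A hA σ hσ := by
    have := h.neZeroL' G n
    have hvp' : (v : ℕ) ≠ p := fun h => hvp (Subtype.ext h)
    refine (M.levL n _ h _ rfl).unr v v.2 (fun h1 => ?_) hvp' A hA σ hσ
    rcases v.2.dvd_mul.mp h1 with h2 | h2
    · exact hv (LamP.mk' hm v.2 hvp' (h.memL v v.2 h2)) rfl
    · obtain ⟨i, -, h3⟩ := (Prime.dvd_finsetProd_iff v.2.prime _).mp (v.2.dvd_of_dvd_pow h2)
      exact hvQ i (Subtype.ext ((Nat.prime_dvd_prime_iff_eq v.2 (G.q n i).2).mp h3))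

include M hm hpm hpO hχ in
/-- **Level lowering** at a prime where the residual representation is unramified, for a level
prime to `p`. -/
theorem lowerX_flat (hp2 : p ≠ 2) {l : Nat.Primes} (hlp : (l : ℕ) ≠ p)
    (h' : OkX W p s m (N * l)) (hsN : s ∣ N) (hpN : ¬ p ∣ N * l) (hτ : rbar (G.τ l) = 1) :
    W.IsResiduallyModularOfLevel p N := by
  by_contra hN
  have hlm : (l : ℕ) ∣ m := (Dvd.intro_left N rfl).trans h'.dvd
  have hflat : ∀ n, FlatM p O (M.L n (N * l) h').C.r := fun n => by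
    have := h'.neZeroL' G n
    refine (M.levL n _ h' _ rfl).flatM hpO (mul_ne_zero hm (Q_ne_zero G n)) (h'.memL' G n)
      hp2 (fun h => ?_) (hpm.mul_right _) (span_of_rd G.rd hp2)
    rcases hp.out.dvd_mul.mp h with h4 | h4
    · exact hpN h4
    · exact (Nat.Prime.coprime_iff_not_dvd hp.out).mp (coprime_Q G hp.out hpm n)
        (hp.out.dvd_of_dvd_pow h4)
  have hflat0 : FlatM p O (M.B (N * l) h').C.r := by
    have := h'.neZero
    exact (M.levB _ h').flatM hpO hm h'.memL hp2 hpN hpm (span_of_rd G.rd hp2)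
  obtain ⟨Z⟩ := (flTan M hm hpm hpO hχ h').exists_frm_fl hpO hp2 hχ hflat0 fun n _ => hflat n
  refine RT8.MSys.lowerA hp.out hpO (numC hpO hp2) Z le_rfl () (M.dpos _ h')
    (LamP.mk' hm l.2 hlp hlm) ⟨fun n => ?_, ?_⟩ hτ
  · have := h'.neZeroL' G n
    exact (M.levL n _ h' _ rfl).isStPm hpO (mul_ne_zero hm (Q_ne_zero G n)) (h'.memL' G n) hχ
      (h'.nsqL' G n l.2 hlm) (G.tame l hlp) (M.newst l hlp N h' hsN hN n)
  · exact M.exact l hlp N h' hsN hN

end lower

end Fermat.Agent.SL2
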